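/-
S41 / unit U7 (non-Eisenstein witness) — ASSEMBLY (helper2).

`ne_witness_of`: the non-Eisenstein witness (a good prime `l` outside any finite set with
`p ∤ #W(𝔽_l) = l + 1 - a_l`) from the four U7 leaves, taken as explicit hypotheses:

* GROUP  : an irreducible linear action on an `𝔽_p`-plane has an element of prime-power order
           (modulo the kernel) without nonzero fixed vector;
* CARD   : `#E[p] = p ^ 2` over an algebraically closed field in which `p ≠ 0`;
* QBAR   : decomposition groups meet every coset `σ H`, `H` open normal, `σ` of prime-power order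
           modulo `H` (Frobenius density in its weakest form);
* BRIDGE : at a good prime `l ∤ 2p` with `p ∣ #W(𝔽_l)`, every element of a decomposition group
           over `l` fixes a nonzero `p`-torsion point.
-/
import Mathlib
import Fermat.Prelude.Def_FLTPrelim_ModularRep
import Fermat.Prelude.Def_FLTPrelim_Ramification
import Fermat.Prelude.Def_EllipticCurve_FrobeniusTrace
import Fermat.Agent.S05.H98.VarChangeTorsion
import Fermat.Agent.S54.H94.Frobenius

set_option autoImplicit false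

open WeierstrassCurve WeierstrassCurve.Affine WeierstrassCurve.Affine.Point

namespace Fermat.Agent.S41.H2

local notation "Qbar" => AlgebraicClosure ℚ
local notation "Γ" => (AlgebraicClosure ℚ ≃ₐ[ℚ] AlgebraicClosure ℚ)

/-- The statement of leaf U7-GROUP (at universe level `0`). -/
def GroupStatement : Prop :=
  ∀ {p : ℕ} [Fact p.Prime] {V : Type} [AddCommGroup V] [Module (ZMod p) V]
    (_ : Nat.card V = p ^ 2) {G : Type} [Group G] [DistribMulAction G V]
    [SMulCommClass G (ZMod p) V]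
    (_ : ∀ N : Submodule (ZMod p) V, (∀ g : G, ∀ x ∈ N, g • x ∈ N) → N = ⊥ ∨ N = ⊤),
    ∃ g : G, (∃ r a : ℕ, r.Prime ∧ ∀ v : V, g ^ (r ^ a) • v = v) ∧ ∀ v : V, g • v = v → v = 0

/-- The statement of leaf U7-CARD (over `ℚbar`). -/
def CardStatement : Prop :=
  ∀ (W : WeierstrassCurve.Affine Qbar) (_ : W.Δ ≠ 0) {p : ℕ} (_ : p.Prime) (_ : p ≠ 2)
    (_ : (p : Qbar) ≠ 0), Nat.card (Submodule.torsionBy ℤ W.Point p) = p ^ 2

/-- The statement of leaf U7-QBAR. -/
def QbarStatement : Prop :=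
  ∀ (H : Subgroup Γ) [H.Normal] (_ : IsOpen (H : Set Γ)) (σ : Γ) (r a : ℕ) (_ : r.Prime)
    (_ : σ ∉ H) (_ : σ ^ (r ^ a) ∈ H) (S : Finset ℕ),
    ∃ (l : ℕ) (A : ValuationSubring Qbar) (g : Γ), l.Prime ∧ l ∉ S ∧ A.LiesOverPrime l ∧
      g ∈ A.decompositionSubgroup ℚ ∧ g⁻¹ * σ ∈ H

/-- The statement of leaf U7-BRIDGE. -/
def BridgeStatement : Prop :=
  ∀ (W : WeierstrassCurve ℤ) {p l : ℕ} (_ : p.Prime) (_ : p ≠ 2) (_ : l.Prime) (_ : l ≠ 2)
    (_ : l ≠ p) (_ : W.IsGoodPrimeFor l) (A : ValuationSubring Qbar) (_ : A.LiesOverPrime l)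
    (g : Γ) (_ : g ∈ A.decompositionSubgroup ℚ) (_ : (p : ℤ) ∣ (l : ℤ) + 1 - W.apOfModel l),
    ∃ P : Submodule.torsionBy ℤ ((W.map (Int.castRingHom ℚ))⁄Qbar).Point p,
      P ≠ 0 ∧ g • P = P

section Open

variable {W' : Affine ℚ}

/-- The stabiliser of a point of `W'(ℚbar)` in the absolute Galois group is open. -/
theorem isOpen_stabilizer_point (P : (W'⁄Qbar).Point) :
    IsOpen {σ : Γ | σ • P = P} := by
  rcases P with _ | ⟨x, y, h⟩
  · have : {σ : Γ | σ • (Point.zero : (W'⁄Qbar).Point) = Point.zero} = Set.univ := by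
      ext σ
      simp only [Set.mem_ofPred_eq, Set.mem_univ, iff_true]
      rfl
    rw [this]
    exact isOpen_univ
  · have hx := stabilizer_isOpen_of_isIntegral (K := ℚ) (x : Qbar)
    have hy := stabilizer_isOpen_of_isIntegral (K := ℚ) (y : Qbar)
    have hsub : (MulAction.stabilizer Γ x ⊓ MulAction.stabilizer Γ y : Subgroup Γ) ≤
        MulAction.stabilizer Γ (Point.some x y h : (W'⁄Qbar).Point) := by
      intro σ hσ
      rw [Subgroup.mem_inf, MulAction.mem_stabilizer_iff, MulAction.mem_stabilizer_iff] at hσ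
      rw [MulAction.mem_stabilizer_iff, algEquiv_smul_def]
      have h1 : σ x = x := hσ.1
      have h2 : σ y = y := hσ.2
      simp only [Point.map_some]
      rw [Point.some.injEq]
      exact ⟨h1, h2⟩
    have hopen : IsOpen ((MulAction.stabilizer Γ x ⊓ MulAction.stabilizer Γ y : Subgroup Γ) :
        Set Γ) := by
      rw [Subgroup.coe_inf]
      exact hx.inter hy
    exact Subgroup.isOpen_mono hsub hopen

end Open

/-- **U7 assembly**: the non-Eisenstein witness from the four leaves. -/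
theorem ne_witness_of (hGROUP : GroupStatement) (hCARD : CardStatement) (hQBAR : QbarStatement)
    (hBRIDGE : BridgeStatement)
    (E : WeierstrassCurve ℚ) [E.IsElliptic] {W : WeierstrassCurve ℤ}
    (hW : W.IsIntegralModelOf E) {p : ℕ} (hp : p.Prime) (hp2 : p ≠ 2)
    (hirr : GaloisRepIsIrreducible (K := AlgebraicClosure ℚ) ℚ E p) (S : Finset ℕ) :
    ∃ l : ℕ, l.Prime ∧ l ∉ S ∧ W.IsGoodPrimeFor l ∧ ¬ (p : ℤ) ∣ (l : ℤ) + 1 - W.apOfModel l := by
  classical
  have : Fact p.Prime := ⟨hp⟩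
  obtain ⟨C, hC⟩ := hW
  -- transport of irreducibility to the integral model
  have hirr' : GaloisRepIsIrreducible (K := AlgebraicClosure ℚ) ℚ
      (W.map (Int.castRingHom ℚ)) p := by
    rw [← hC]
    exact (Fermat.Agent.S05.H98.galoisRepIsIrreducible_smul_iff C E p).mpr hirr
  -- discriminants
  have hΔQ : (W.map (Int.castRingHom ℚ)).Δ ≠ 0 := by
    rw [← hC, WeierstrassCurve.variableChange_Δ]
    exact mul_ne_zero (by simp) E.isUnit_Δ.ne_zero
  have hΔ : W.Δ ≠ 0 := by
    intro h0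
    apply hΔQ
    rw [WeierstrassCurve.map_Δ, h0]
    simp
  have hΔbar : ((W.map (Int.castRingHom ℚ))⁄Qbar).Δ ≠ 0 := by
    rw [show ((W.map (Int.castRingHom ℚ))⁄Qbar) =
      (W.map (Int.castRingHom ℚ)).map (algebraMap ℚ Qbar) from rfl, WeierstrassCurve.map_Δ]
    exact (map_ne_zero _).mpr hΔQ
  -- the torsion module
  have hcard : Nat.card (Submodule.torsionBy ℤ ((W.map (Int.castRingHom ℚ))⁄Qbar).Point p) =
      p ^ 2 := hCARD _ hΔbar hp hp2 (by exact_mod_cast hp.ne_zero)
  have hfin : Finite (Submodule.torsionBy ℤ ((W.map (Int.castRingHom ℚ))⁄Qbar).Point p) :=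
    Nat.finite_of_card_ne_zero (by rw [hcard]; exact pow_ne_zero _ hp.ne_zero)
  obtain ⟨σ, ⟨r, a, hr, hra⟩, hfix⟩ := hGROUP hcard (G := Γ) hirr'.2
  -- the kernel of the action
  let H : Subgroup Γ :=
    (MulAction.toPermHom Γ (Submodule.torsionBy ℤ ((W.map (Int.castRingHom ℚ))⁄Qbar).Point p)).ker
  have hmemH : ∀ τ : Γ, τ ∈ H ↔
      ∀ v : Submodule.torsionBy ℤ ((W.map (Int.castRingHom ℚ))⁄Qbar).Point p, τ • v = v := by
    intro τ
    rw [MonoidHom.mem_ker, Equiv.Perm.ext_iff]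
    rfl
  have hHopen : IsOpen (H : Set Γ) := by
    have hset : (H : Set Γ) = ⋂ v : Submodule.torsionBy ℤ
        ((W.map (Int.castRingHom ℚ))⁄Qbar).Point p,
        {τ : Γ | τ • (v : ((W.map (Int.castRingHom ℚ))⁄Qbar).Point) = v} := by
      ext τ
      rw [SetLike.mem_coe, hmemH, Set.mem_iInter]
      refine forall_congr' fun v => ?_
      rw [Set.mem_ofPred_eq, Subtype.ext_iff]
      rfl
    rw [hset]
    exact isOpen_iInter_of_finite fun v => isOpen_stabilizer_point _
  have hσH : σ ∉ H := by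
    intro hσ
    rw [hmemH] at hσ
    have hall : ∀ v : Submodule.torsionBy ℤ ((W.map (Int.castRingHom ℚ))⁄Qbar).Point p,
        v = 0 := fun v => hfix v (hσ v)
    have : Subsingleton (Submodule.torsionBy ℤ ((W.map (Int.castRingHom ℚ))⁄Qbar).Point p) :=
      ⟨fun x y => by rw [hall x, hall y]⟩
    have h1 : Nat.card (Submodule.torsionBy ℤ ((W.map (Int.castRingHom ℚ))⁄Qbar).Point p) = 1 :=
      Nat.card_unique
    rw [hcard] at h1
    exact hp.one_lt.ne' (by nlinarith [hp.one_lt] : p = 1)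
  have hpowH : σ ^ (r ^ a) ∈ H := (hmemH _).mpr hra
  -- the excluded primes
  obtain ⟨l, A, g, hl, hlS, hA, hg, hgσ⟩ :=
    hQBAR H hHopen σ r a hr hσH hpowH (S ∪ {2, p} ∪ W.Δ.natAbs.primeFactors)
  have hlS' : l ∉ S := fun h => hlS (by simp [h])
  have hl2 : l ≠ 2 := fun h => hlS (by simp [h])
  have hlp : l ≠ p := fun h => hlS (by simp [h])
  have hgood : W.IsGoodPrimeFor l := by
    intro hdvd
    apply hlS
    have h1 : l ∣ W.Δ.natAbs := Int.natCast_dvd.mp hdvd
    have h2 : l ∈ W.Δ.natAbs.primeFactors :=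
      Nat.mem_primeFactors.mpr ⟨hl, h1, Int.natAbs_ne_zero.mpr hΔ⟩
    simp [h2]
  refine ⟨l, hl, hlS', hgood, fun hdvd => ?_⟩
  obtain ⟨P, hP0, hgP⟩ := hBRIDGE W hp hp2 hl hl2 hlp hgood A hA g hg hdvd
  apply hP0
  apply hfix
  have h1 : (g⁻¹ * σ) • P = P := (hmemH _).mp hgσ P
  rw [mul_smul] at h1
  calc σ • P = g • (g⁻¹ • (σ • P)) := (smul_inv_smul g _).symm
    _ = g • P := by rw [h1]
    _ = P := hgP

end Fermat.Agent.S41.H2
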