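/-
S41 / U7-QBAR, part 1 (helper2): cyclic subgroups modulo a normal subgroup.

For a normal subgroup `H` of a group `G` and `σ : G`, `cyc H σ` is the preimage in `G` of the
cyclic subgroup generated by the class of `σ` in `G ⧸ H` (i.e. `H · ⟨σ⟩`).  If `σ` has `r`-power
order modulo `H` (`r` prime) and `σ ∉ H`, then `σ ∉ cyc H (σ ^ r)`, and every element of
`cyc H σ` outside `cyc H (σ ^ r)` generates `cyc H σ` modulo `H`.
-/
import Mathlib

set_option autoImplicit false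

namespace Fermat.Agent.S41.H2

variable {G : Type*} [Group G]

/-- The preimage of the cyclic subgroup of `G ⧸ H` generated by the class of `σ`. -/
def cyc (H : Subgroup G) [H.Normal] (σ : G) : Subgroup G :=
  (Subgroup.zpowers (QuotientGroup.mk' H σ)).comap (QuotientGroup.mk' H)

variable (H : Subgroup G) [H.Normal] (σ : G)

theorem mem_cyc_iff {τ : G} : τ ∈ cyc H σ ↔ ∃ k : ℤ, τ⁻¹ * σ ^ k ∈ H := by
  unfold cyc
  rw [Subgroup.mem_comap, Subgroup.mem_zpowers_iff]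
  refine exists_congr fun k => ?_
  rw [← map_zpow, QuotientGroup.mk'_apply, QuotientGroup.mk'_apply, eq_comm, QuotientGroup.eq]

theorem le_cyc : H ≤ cyc H σ := by
  intro h hh
  rw [mem_cyc_iff]
  exact ⟨0, by simpa using H.inv_mem hh⟩

theorem self_mem_cyc : σ ∈ cyc H σ := by
  rw [mem_cyc_iff]
  exact ⟨1, by simp⟩

theorem cyc_pow_le (r : ℕ) : cyc H (σ ^ r) ≤ cyc H σ := by
  intro τ hτ
  rw [mem_cyc_iff] at hτ ⊢
  obtain ⟨k, hk⟩ := hτ
  refine ⟨r * k, ?_⟩
  rwa [zpow_mul, zpow_natCast]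

theorem pow_mem_cyc_pow (r : ℕ) : σ ^ r ∈ cyc H (σ ^ r) := self_mem_cyc H (σ ^ r)

/-- Conjugation by `σ` preserves `cyc H (σ ^ r)`. -/
theorem conj_mem_cyc_pow (r : ℕ) {c : G} (hc : c ∈ cyc H (σ ^ r)) :
    σ⁻¹ * c * σ ∈ cyc H (σ ^ r) ∧ σ * c * σ⁻¹ ∈ cyc H (σ ^ r) := by
  unfold cyc at hc ⊢
  rw [Subgroup.mem_comap] at hc
  simp only [Subgroup.mem_comap, map_mul, map_inv]
  obtain ⟨k, hk⟩ := Subgroup.mem_zpowers_iff.mp hc
  have hcomm : QuotientGroup.mk' H σ * QuotientGroup.mk' H c =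
      QuotientGroup.mk' H c * QuotientGroup.mk' H σ := by
    rw [← hk, map_pow, ← zpow_natCast, ← zpow_mul]
    exact (Commute.zpow_right (Commute.refl _) _).eq
  constructor
  · have : (QuotientGroup.mk' H σ)⁻¹ * QuotientGroup.mk' H c * QuotientGroup.mk' H σ =
        QuotientGroup.mk' H c := by
      rw [mul_assoc, ← hcomm, ← mul_assoc, inv_mul_cancel, one_mul]
    rw [this]; exact hc
  · have : QuotientGroup.mk' H σ * QuotientGroup.mk' H c * (QuotientGroup.mk' H σ)⁻¹ =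
        QuotientGroup.mk' H c := by
      rw [hcomm, mul_assoc, mul_inv_cancel, mul_one]
    rw [this]; exact hc

variable {H σ}

/-- If `σ ∉ H` has `r`-power order modulo `H`, then `σ ∉ cyc H (σ ^ r)`. -/
theorem not_mem_cyc_pow {r a : ℕ} (hσ : σ ∉ H) (hpow : σ ^ (r ^ a) ∈ H) :
    σ ∉ cyc H (σ ^ r) := by
  intro hmem
  rw [mem_cyc_iff] at hmem
  obtain ⟨k, hk⟩ := hmem
  apply hσ
  -- in the quotient: s = s ^ (r k), s ^ (r ^ a) = 1
  set s := QuotientGroup.mk' H σ with hs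
  have h1 : s ^ ((r : ℤ) * k - 1) = 1 := by
    have : QuotientGroup.mk' H (σ⁻¹ * (σ ^ r) ^ k) = 1 := by
      rw [QuotientGroup.mk'_apply, QuotientGroup.eq_one_iff]; exact hk
    rw [map_mul, map_inv, map_zpow, map_pow, ← hs] at this
    rw [zpow_sub, zpow_one, zpow_mul, zpow_natCast, mul_inv_eq_one]
    rw [inv_mul_eq_one] at this
    exact this.symm
  have h2 : s ^ ((r : ℤ) ^ a) = 1 := by
    have : QuotientGroup.mk' H (σ ^ (r ^ a)) = 1 := by
      rw [QuotientGroup.mk'_apply, QuotientGroup.eq_one_iff]; exact hpow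
    rw [map_pow, ← hs] at this
    rw [← Nat.cast_pow, zpow_natCast]; exact this
  have hcop : IsCoprime ((r : ℤ) * k - 1) ((r : ℤ) ^ a) := by
    apply IsCoprime.pow_right
    exact ⟨-1, k, by ring⟩
  obtain ⟨u, v, huv⟩ := hcop
  have h3 : s = 1 := by
    calc s = s ^ (u * ((r : ℤ) * k - 1) + v * (r : ℤ) ^ a) := by rw [huv, zpow_one]
      _ = 1 := by
        rw [zpow_add, mul_comm u, mul_comm v, zpow_mul, zpow_mul, h1, h2]
        simp
  have : QuotientGroup.mk' H σ = 1 := h3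
  rwa [QuotientGroup.mk'_apply, QuotientGroup.eq_one_iff] at this

/-- An element of `cyc H σ` outside `cyc H (σ ^ r)` generates `cyc H σ` modulo `H`
(`σ` of `r`-power order modulo `H`, `r` prime). -/
theorem exists_zpow_of_not_mem_cyc_pow {r a : ℕ} (hr : r.Prime) (hpow : σ ^ (r ^ a) ∈ H) {τ : G}
    (hτ : τ ∈ cyc H σ) (hτr : τ ∉ cyc H (σ ^ r)) : ∃ u : ℤ, (τ ^ u)⁻¹ * σ ∈ H := by
  rw [mem_cyc_iff] at hτ
  obtain ⟨k, hk⟩ := hτ
  set s := QuotientGroup.mk' H σ with hs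
  set t := QuotientGroup.mk' H τ with ht
  have htk : t = s ^ k := by
    have : QuotientGroup.mk' H (τ⁻¹ * σ ^ k) = 1 := by
      rw [QuotientGroup.mk'_apply, QuotientGroup.eq_one_iff]; exact hk
    rw [map_mul, map_inv, map_zpow, ← hs, ← ht, inv_mul_eq_one] at this
    exact this
  have h2 : s ^ ((r : ℤ) ^ a) = 1 := by
    have : QuotientGroup.mk' H (σ ^ (r ^ a)) = 1 := by
      rw [QuotientGroup.mk'_apply, QuotientGroup.eq_one_iff]; exact hpow
    rw [map_pow, ← hs] at this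
    rw [← Nat.cast_pow, zpow_natCast]; exact this
  have hrk : ¬ (r : ℤ) ∣ k := by
    rintro ⟨m, rfl⟩
    apply hτr
    rw [mem_cyc_iff]
    refine ⟨m, ?_⟩
    have : QuotientGroup.mk' H (τ⁻¹ * (σ ^ r) ^ m) = 1 := by
      rw [map_mul, map_inv, map_zpow, map_pow, ← hs, ← ht, htk, inv_mul_eq_one, zpow_mul,
        zpow_natCast]
    rwa [QuotientGroup.mk'_apply, QuotientGroup.eq_one_iff] at this
  have hcop : IsCoprime k ((r : ℤ) ^ a) := by
    apply IsCoprime.pow_right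
    have hrp : Prime (r : ℤ) := Nat.prime_iff_prime_int.mp hr
    exact ((hrp.coprime_iff_not_dvd).mpr hrk).symm
  obtain ⟨u, v, huv⟩ := hcop
  refine ⟨u, ?_⟩
  have : QuotientGroup.mk' H ((τ ^ u)⁻¹ * σ) = 1 := by
    rw [map_mul, map_inv, map_zpow, ← hs, ← ht, inv_mul_eq_one, htk, ← zpow_mul]
    calc s ^ (k * u) = s ^ (k * u) * (s ^ ((r : ℤ) ^ a)) ^ v := by rw [h2, one_zpow, mul_one]
      _ = s ^ (u * k + v * (r : ℤ) ^ a) := by
        rw [← zpow_mul, ← zpow_add]; congr 1; ring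
      _ = s := by rw [huv, zpow_one]
  rwa [QuotientGroup.mk'_apply, QuotientGroup.eq_one_iff] at this

end Fermat.Agent.S41.H2
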