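/-
S41 / U7-QBAR, part 3 (helper2): a Frobenius element inside a closed subgroup.

Let `C` be a closed subgroup of `Γ = Gal(ℚbar/ℚ)`, `A` a valuation subring of `ℚbar` over the prime
`l`, and assume that every algebraic integer fixed by `C` satisfies `b ^ l ≡ b` modulo the maximal
ideal of `A`.  Then some `τ ∈ C` satisfies `τ b ≡ b ^ l` for all algebraic integers `b`.
(Mathlib's `Ideal.Quotient.stabilizerHom_surjective_of_profinite` for the profinite group `C`
acting on the ring of all algebraic integers, over the subring of `C`-fixed integers.)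
-/
import Mathlib
import Fermat.Prelude.Def_FLTPrelim_Ramification
import Fermat.Agent.S54.H94.Frobenius

set_option autoImplicit false

open scoped Pointwise

namespace Fermat.Agent.S41.H2

open Fermat.Agent.S54.H94 (primeB mem_primeB_iff charP_quot_primeB exists_pow_eq_quot_primeB)

local notation "Qbar" => AlgebraicClosure ℚ
local notation "Γ" => (AlgebraicClosure ℚ ≃ₐ[ℚ] AlgebraicClosure ℚ)
local notation "𝓑" => integralClosure ℤ (AlgebraicClosure ℚ)

attribute [local instance] Fermat.Agent.S54.H94.topB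

local instance discreteTopB' : DiscreteTopology 𝓑 := ⟨rfl⟩

section

variable (C : Subgroup Γ)

/-- The subring of `C`-fixed algebraic integers. -/
noncomputable abbrev fixB : Subalgebra ℤ 𝓑 := FixedPoints.subalgebra ℤ 𝓑 ↥C

theorem mem_fixB_iff (b : 𝓑) : b ∈ fixB C ↔ ∀ c ∈ C, c • b = b := by
  constructor
  · intro h c hc
    exact h ⟨c, hc⟩
  · intro h c
    exact h c.1 c.2

instance smulCommClass_fixB : SMulCommClass ↥C ↥(fixB C) 𝓑 where
  smul_comm c a b := by
    show c • ((a : 𝓑) * b) = (a : 𝓑) * c • b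
    rw [smul_mul', a.2 c]

instance isInvariant_fixB : Algebra.IsInvariant ↥(fixB C) 𝓑 ↥C where
  isInvariant b hb := ⟨⟨b, hb⟩, rfl⟩

end

theorem exists_frob_mem (C : Subgroup Γ) (hC : IsClosed (C : Set Γ)) (A : ValuationSubring Qbar)
    {l : ℕ} (hl : l.Prime) (hAl : A.LiesOverPrime l)
    (hfix : ∀ b : 𝓑, (∀ c ∈ C, c • b = b) → b ^ l - b ∈ primeB A) :
    ∃ τ ∈ C, ∀ b : 𝓑, τ • b - b ^ l ∈ primeB A := by
  have : CompactSpace ↥C := isCompact_iff_compactSpace.mp hC.isCompact
  have : CharP (𝓑 ⧸ primeB A) l := charP_quot_primeB hl hAl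
  have : Fact l.Prime := ⟨hl⟩
  let P : Ideal ↥(fixB C) := (primeB A).under ↥(fixB C)
  let F : (𝓑 ⧸ primeB A) →ₐ[↥(fixB C) ⧸ P] (𝓑 ⧸ primeB A) :=
    { frobenius (𝓑 ⧸ primeB A) l with
      commutes' := fun r => by
        obtain ⟨a, rfl⟩ := Ideal.Quotient.mk_surjective r
        show (frobenius (𝓑 ⧸ primeB A) l) _ = _
        rw [frobenius_def, ← map_pow, ← map_pow]
        congr 1
        rw [Ideal.Quotient.eq]
        show algebraMap ↥(fixB C) 𝓑 (a ^ l - a) ∈ primeB A
        rw [map_sub, map_pow]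
        exact hfix (a : 𝓑) ((mem_fixB_iff C _).mp a.2) }
  have hbij : Function.Bijective F :=
    ⟨frobenius_inj (𝓑 ⧸ primeB A) l, fun x => exists_pow_eq_quot_primeB hl.pos x⟩
  obtain ⟨g, hg⟩ := Ideal.Quotient.stabilizerHom_surjective_of_profinite (G := ↥C)
    P (primeB A) (AlgEquiv.ofBijective F hbij)
  refine ⟨((g : ↥C) : Γ), (g : ↥C).2, fun b => ?_⟩
  have h := DFunLike.congr_fun hg (Ideal.Quotient.mk _ b)
  rw [Ideal.Quotient.stabilizerHom_apply] at h
  rw [← Ideal.Quotient.eq, map_pow]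
  exact h

end Fermat.Agent.S41.H2
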