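/-
S41 / U7-QBAR, part 2 (helper2): number fields inside `ℚbar`, primes and valuation subrings.

* `toQbar K : 𝓞 K →+* ℚbar`, `toB K : 𝓞 K →+* 𝓑` for an intermediate field `K` of `ℚbar / ℚ`;
* fixed fields of open subgroups of `Gal(ℚbar/ℚ)` are number fields, and an automorphism fixing
  the fixed field of an open subgroup lies in it;
* `exists_valuationSubring_over` : a valuation subring of `ℚbar` over a given prime of `𝓞 K`;
* `exists_degOne_of_frob` : if `y ^ l ≡ y` modulo the maximal ideal of `A` for all `y ∈ 𝓞 M`,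
  the prime of `M` below `A` has norm `l`;
* `mem_decomposition_of_frob` : an automorphism with `τ b ≡ b ^ l` on algebraic integers lies in
  the decomposition group of `A` (extracted from the landed `S54/H94/Frobenius.lean`).
-/
import Mathlib
import Fermat.Prelude.Def_FLTPrelim_Ramification
import Fermat.Agent.S54.H94.Frobenius

set_option autoImplicit false

open NumberField Ideal IsDedekindDomain
open scoped Pointwise

namespace Fermat.Agent.S41.H2

open Fermat.Agent.S54.H94 (primeB mem_primeB_iff inclB coe_inclB isUnit_inclB_iff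
  map_mem_of_forall_isUnit mem_valuationSubring_of_isIntegral)

local notation "Qbar" => AlgebraicClosure ℚ
local notation "Γ" => (AlgebraicClosure ℚ ≃ₐ[ℚ] AlgebraicClosure ℚ)
local notation "𝓑" => integralClosure ℤ (AlgebraicClosure ℚ)

/-! ### Fixed fields of open subgroups -/

theorem fixingSubgroup_fixedField_of_isOpen (C : Subgroup Γ) (hC : IsOpen (C : Set Γ)) :
    (IntermediateField.fixedField C).fixingSubgroup = C := by
  have hcl : IsClosed (C : Set Γ) := Subgroup.isClosed_of_isOpen C hC
  exact InfiniteGalois.fixingSubgroup_fixedField (⟨C, hcl⟩ : ClosedSubgroup Γ)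

theorem finiteDimensional_fixedField (C : Subgroup Γ) (hC : IsOpen (C : Set Γ)) :
    FiniteDimensional ℚ (IntermediateField.fixedField C) := by
  rw [← InfiniteGalois.isOpen_iff_finite]
  show IsOpen ((IntermediateField.fixedField C).fixingSubgroup : Set Γ)
  rw [fixingSubgroup_fixedField_of_isOpen C hC]
  exact hC

theorem numberField_of_finite (K : IntermediateField ℚ Qbar) [FiniteDimensional ℚ K] :
    NumberField K :=
  { to_charZero := inferInstance
    to_finiteDimensional := by convert (inferInstance : FiniteDimensional ℚ K) }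

theorem mem_of_forall_fixedField (C : Subgroup Γ) (hC : IsOpen (C : Set Γ)) (τ : Γ)
    (h : ∀ x ∈ IntermediateField.fixedField C, τ x = x) : τ ∈ C := by
  rw [← fixingSubgroup_fixedField_of_isOpen C hC, IntermediateField.mem_fixingSubgroup_iff]
  exact h

/-! ### Integers of an intermediate field -/

/-- The embedding of the integers of an intermediate field into `ℚbar`. -/
noncomputable def toQbar (K : IntermediateField ℚ Qbar) : 𝓞 K →+* Qbar :=
  (algebraMap K Qbar).comp (algebraMap (𝓞 K) K)

theorem toQbar_apply (K : IntermediateField ℚ Qbar) (x : 𝓞 K) :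
    toQbar K x = ((x : K) : Qbar) := rfl

theorem toQbar_mem (K : IntermediateField ℚ Qbar) (x : 𝓞 K) : toQbar K x ∈ K :=
  (x : K).2

theorem toQbar_injective (K : IntermediateField ℚ Qbar) : Function.Injective (toQbar K) := by
  intro x y h
  apply RingOfIntegers.ext
  exact Subtype.ext h

theorem toQbar_isIntegral (K : IntermediateField ℚ Qbar) (x : 𝓞 K) :
    IsIntegral ℤ (toQbar K x) := by
  have h : IsIntegral ℤ (x : K) := RingOfIntegers.isIntegral_coe x
  exact h.map (IsScalarTower.toAlgHom ℤ K Qbar)

theorem exists_toQbar_eq (K : IntermediateField ℚ Qbar) {b : Qbar} (hb : b ∈ K)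
    (hi : IsIntegral ℤ b) : ∃ x : 𝓞 K, toQbar K x = b := by
  have h : IsIntegral ℤ (⟨b, hb⟩ : K) := by
    have : IsIntegral ℤ (algebraMap K Qbar ⟨b, hb⟩) := hi
    exact (isIntegral_algebraMap_iff (algebraMap K Qbar).injective).mp this
  exact ⟨⟨⟨b, hb⟩, h⟩, rfl⟩

/-- The embedding of the integers of an intermediate field into the ring of all algebraic
integers. -/
noncomputable def toB (K : IntermediateField ℚ Qbar) : 𝓞 K →+* 𝓑 :=
  (toQbar K).codRestrict (integralClosure ℤ Qbar) (toQbar_isIntegral K)

theorem coe_toB (K : IntermediateField ℚ Qbar) (x : 𝓞 K) : ((toB K x : 𝓑) : Qbar) = toQbar K x :=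
  rfl

/-- The prime of `𝓞 K` below a valuation subring of `ℚbar`. -/
noncomputable def primeBelow (K : IntermediateField ℚ Qbar) (A : ValuationSubring Qbar) :
    Ideal (𝓞 K) := (primeB A).comap (toB K)

instance primeBelow_isPrime (K : IntermediateField ℚ Qbar) (A : ValuationSubring Qbar) :
    (primeBelow K A).IsPrime := Ideal.comap_isPrime (toB K) (primeB A)

theorem mem_primeBelow_iff (K : IntermediateField ℚ Qbar) (A : ValuationSubring Qbar) (x : 𝓞 K) :
    x ∈ primeBelow K A ↔ toQbar K x ∈ A.nonunits := by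
  rw [primeBelow, Ideal.mem_comap, mem_primeB_iff, coe_toB]

/-! ### A valuation subring over a prime of a number field -/

theorem exists_valuationSubring_over (K : IntermediateField ℚ Qbar) [NumberField K]
    (v : HeightOneSpectrum (𝓞 K)) :
    ∃ A : ValuationSubring Qbar, primeBelow K A = v.asIdeal := by
  have hinj : Function.Injective (toQbar K).rangeRestrict := by
    intro x y h
    apply toQbar_injective K
    have h' := congrArg Subtype.val h
    simpa only [RingHom.coe_rangeRestrict] using h'
  have hsurj : Function.Surjective (toQbar K).rangeRestrict := (toQbar K).rangeRestrict_surjective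
  have hI : v.asIdeal.map (toQbar K).rangeRestrict ≠ ⊤ := by
    intro htop
    have h1 := Ideal.comap_map_of_surjective (toQbar K).rangeRestrict hsurj v.asIdeal
    rw [htop, Ideal.comap_top] at h1
    have h2 : Ideal.comap (toQbar K).rangeRestrict ⊥ = ⊥ := by
      rw [← RingHom.ker_eq_comap_bot]
      exact (RingHom.injective_iff_ker_eq_bot _).mp hinj
    rw [h2, sup_bot_eq] at h1
    exact v.isPrime.ne_top h1.symm
  obtain ⟨A, -, hA⟩ := Ideal.image_subset_nonunits_valuationSubring _ hI
  refine ⟨A, ?_⟩
  have hle : v.asIdeal ≤ primeBelow K A := by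
    intro x hx
    rw [mem_primeBelow_iff]
    apply hA
    exact ⟨(toQbar K).rangeRestrict x, Ideal.mem_map_of_mem _ hx, rfl⟩
  have hmax : v.asIdeal.IsMaximal := v.isMaximal
  exact (hmax.eq_of_le (primeBelow_isPrime K A).ne_top hle).symm

/-! ### Degree-one primes from a Frobenius congruence -/

theorem card_le_of_forall_pow_eq {F : Type*} [Field F] [Finite F] {l : ℕ} (hl : 1 < l)
    (h : ∀ x : F, x ^ l = x) : Nat.card F ≤ l := by
  classical
  have := Fintype.ofFinite F
  rw [Nat.card_eq_fintype_card]
  have hne : (Polynomial.X ^ l - Polynomial.X : Polynomial F) ≠ 0 :=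
    FiniteField.X_pow_card_sub_X_ne_zero F hl
  have hsub : (Finset.univ : Finset F) ⊆
      (Polynomial.X ^ l - Polynomial.X : Polynomial F).roots.toFinset := by
    intro x _
    rw [Multiset.mem_toFinset, Polynomial.mem_roots hne]
    simp [h x]
  calc Fintype.card F = (Finset.univ : Finset F).card := rfl
    _ ≤ (Polynomial.X ^ l - Polynomial.X : Polynomial F).roots.toFinset.card :=
      Finset.card_le_card hsub
    _ ≤ Multiset.card (Polynomial.X ^ l - Polynomial.X : Polynomial F).roots :=
      Multiset.toFinset_card_le _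
    _ ≤ (Polynomial.X ^ l - Polynomial.X : Polynomial F).natDegree := Polynomial.card_roots' _
    _ = l := FiniteField.X_pow_card_sub_X_natDegree_eq F hl

/-- If every integer of `M` satisfies `y ^ l ≡ y` modulo the maximal ideal of `A` (a valuation
subring over `l`), then the prime of `M` below `A` has norm `l`. -/
theorem absNorm_primeBelow_eq (M : IntermediateField ℚ Qbar) [NumberField M]
    (A : ValuationSubring Qbar) {l : ℕ} (hl : l.Prime) (hAl : A.LiesOverPrime l)
    (hfrob : ∀ y : 𝓞 M, toQbar M y ^ l - toQbar M y ∈ A.nonunits) :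
    primeBelow M A ≠ ⊥ ∧ absNorm (primeBelow M A) = l := by
  have hlmem : (l : 𝓞 M) ∈ primeBelow M A := by
    rw [mem_primeBelow_iff, map_natCast]
    exact hAl
  have hl0 : (l : 𝓞 M) ≠ 0 := by exact_mod_cast hl.ne_zero
  have hbot : primeBelow M A ≠ ⊥ := fun h => hl0 (by simpa [h] using hlmem)
  refine ⟨hbot, ?_⟩
  have hmax : (primeBelow M A).IsMaximal :=
    (primeBelow_isPrime M A).isMaximal hbot
  -- the norm divides a power of `l`
  have hdvd : absNorm (primeBelow M A) ∣ absNorm (Ideal.span {(l : 𝓞 M)}) :=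
    Ideal.absNorm_dvd_absNorm_of_le (by
      rw [Ideal.span_singleton_le_iff_mem]; exact hlmem)
  have hspan : ∃ n : ℕ, absNorm (Ideal.span {(l : 𝓞 M)}) = l ^ n := by
    classical
    refine ⟨Fintype.card (Module.Free.ChooseBasisIndex ℤ (𝓞 M)), ?_⟩
    rw [Ideal.absNorm_span_singleton]
    have h1 : Algebra.norm ℤ (l : 𝓞 M) =
        (l : ℤ) ^ Fintype.card (Module.Free.ChooseBasisIndex ℤ (𝓞 M)) := by
      have h2 := Algebra.norm_algebraMap_of_basis (RingOfIntegers.basis M) (l : ℤ)
      simpa using h2
    rw [h1, Int.natAbs_pow, Int.natAbs_natCast]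
  obtain ⟨n, hspan⟩ := hspan
  rw [hspan] at hdvd
  obtain ⟨j, -, hj⟩ := (Nat.dvd_prime_pow hl).mp hdvd
  have hj0 : j ≠ 0 := by
    rintro rfl
    rw [pow_zero, Ideal.absNorm_eq_one_iff] at hj
    exact hmax.ne_top hj
  -- the residue field has at most `l` elements
  have hcard : absNorm (primeBelow M A) ≤ l := by
    let _ : Field (𝓞 M ⧸ primeBelow M A) := Ideal.Quotient.field _
    have hfin : Finite (𝓞 M ⧸ primeBelow M A) := by
      apply Nat.finite_of_card_ne_zero
      rw [← Submodule.cardQuot_apply, ← Ideal.absNorm_apply, hj]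
      exact pow_ne_zero _ hl.ne_zero
    have h3 : Nat.card (𝓞 M ⧸ primeBelow M A) ≤ l := by
      apply card_le_of_forall_pow_eq hl.one_lt
      intro x
      obtain ⟨y, rfl⟩ := Ideal.Quotient.mk_surjective x
      rw [← map_pow, Ideal.Quotient.eq, mem_primeBelow_iff, map_sub, map_pow]
      exact hfrob y
    rwa [← Submodule.cardQuot_apply, ← Ideal.absNorm_apply] at h3
  rw [hj] at hcard ⊢
  have : j = 1 := by
    by_contra hj1
    have h2 : 2 ≤ j := by omega
    have : l ^ 2 ≤ l ^ j := Nat.pow_le_pow_right hl.pos h2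
    nlinarith [hl.one_lt]
  rw [this, pow_one]

/-! ### Decomposition group membership from a Frobenius congruence -/

theorem mem_decomposition_of_frob {A : ValuationSubring Qbar} {l : ℕ} (hl : l ≠ 0) (σ : Γ)
    (hσ : ∀ b : 𝓑, σ • b - b ^ l ∈ primeB A) : σ ∈ A.decompositionSubgroup ℚ := by
  have hres : ∀ b : 𝓑, IsLocalRing.residue A (inclB A (σ • b)) =
      (IsLocalRing.residue A (inclB A b)) ^ l := by
    intro b
    have h1 : inclB A (σ • b - b ^ l) ∈ IsLocalRing.maximalIdeal A := hσ b
    rw [← IsLocalRing.residue_eq_zero_iff, map_sub, map_sub, map_pow, map_pow, sub_eq_zero] at h1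
    exact h1
  have hunit : ∀ b : 𝓑, IsUnit (inclB A (σ • b)) ↔ IsUnit (inclB A b) := by
    intro b
    rw [← IsLocalRing.residue_ne_zero_iff_isUnit, ← IsLocalRing.residue_ne_zero_iff_isUnit,
      hres b]
    exact pow_ne_zero_iff hl
  have hmem : ∀ x ∈ A, σ x ∈ A :=
    map_mem_of_forall_isUnit σ fun s hs => (hunit s).mpr hs
  have hmem' : ∀ x ∈ A, σ⁻¹ x ∈ A :=
    map_mem_of_forall_isUnit σ⁻¹ fun s hs => by
      rw [← hunit, smul_inv_smul]
      exact hs
  rw [MulAction.mem_stabilizer_iff]
  ext x
  rw [ValuationSubring.mem_pointwise_smul_iff_inv_smul_mem]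
  constructor
  · intro h
    have h2 : σ • (σ⁻¹ • x) ∈ A := hmem _ h
    rwa [smul_inv_smul] at h2
  · intro h
    exact hmem' x h

end Fermat.Agent.S41.H2
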