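/-
S41 / U7-QBAR, part 4 (helper2): the decomposition-group form of "Frobenius density for an
element of prime-power order modulo an open normal subgroup".

`exists_decomposition_mem_coset : QbarStatement` — for an open normal subgroup `H` of
`Γ = Gal(ℚbar/ℚ)`, `σ ∉ H` with `σ ^ (r ^ a) ∈ H` (`r` prime) and a finite set `S` of integers,
there are a prime `l ∉ S`, a valuation subring `A` of `ℚbar` over `l` and an element `g` of the
decomposition group of `A` with `g⁻¹ σ ∈ H`.

Proof: `C := H ⟨σ⟩`, `C_r := H ⟨σ ^ r⟩`, `K := ℚbar ^ C ≤ M := ℚbar ^ C_r`; `σ` induces an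
automorphism `e` of `𝓞 M` over `𝓞 K` with `e ^ r = 1`, `e ≠ 1`.  The landed leaf NOSPLIT
(`H10.exists_degOne_no_degOne_above`) gives a prime `v` of `K` of prime norm `l ∉ S` such that no
prime of `M` above `v` has prime norm.  Take `A` over `v` and a Frobenius element `τ ∈ C` of `A`
over `K` (`exists_frob_mem`).  If `τ ∈ C_r`, then `y ^ l ≡ y` on `𝓞 M` and the prime of `M` below
`A` has norm `l`: contradiction.  Hence `τ H` generates `C / H`, and a power `g` of `τ` lies in
`σ H`; it lies in the decomposition group of `A` because `τ` does.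
-/
import Mathlib
import Fermat.Prelude.Def_FLTPrelim_Ramification
import Fermat.Agent.S54.H94.Frobenius
import Fermat.Agent.S41.H2.CycCoset
import Fermat.Agent.S41.H2.QbarLemmas
import Fermat.Agent.S41.H2.QbarFrob
import Fermat.Agent.S41.H2.NeAsm
import Fermat.Agent.S41.H10.NoSplit

set_option autoImplicit false

open NumberField Ideal IsDedekindDomain
open scoped Pointwise

namespace Fermat.Agent.S41.H2

open Fermat.Agent.S54.H94 (primeB mem_primeB_iff)

local notation "Qbar" => AlgebraicClosure ℚ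
local notation "Γ" => (AlgebraicClosure ℚ ≃ₐ[ℚ] AlgebraicClosure ℚ)
local notation "𝓑" => integralClosure ℤ (AlgebraicClosure ℚ)

/-! ### Restriction of automorphisms to stable intermediate fields -/

/-- The restriction of an automorphism of `ℚbar` to an intermediate field it stabilises. -/
noncomputable def restrictEquiv (M : IntermediateField ℚ Qbar) (σ : Γ) (h1 : ∀ x ∈ M, σ x ∈ M)
    (h2 : ∀ x ∈ M, σ.symm x ∈ M) : ↥M ≃+* ↥M where
  toFun x := ⟨σ x, h1 x x.2⟩
  invFun x := ⟨σ.symm x, h2 x x.2⟩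
  left_inv x := Subtype.ext (σ.symm_apply_apply x)
  right_inv x := Subtype.ext (σ.apply_symm_apply x)
  map_mul' x y := Subtype.ext (map_mul σ _ _)
  map_add' x y := Subtype.ext (map_add σ _ _)

/-- The automorphism of the ring of integers induced by `restrictEquiv`. -/
noncomputable def restrictInt (M : IntermediateField ℚ Qbar) (σ : Γ) (h1 : ∀ x ∈ M, σ x ∈ M)
    (h2 : ∀ x ∈ M, σ.symm x ∈ M) : 𝓞 M ≃+* 𝓞 M :=
  RingOfIntegers.mapRingEquiv (restrictEquiv M σ h1 h2)

theorem toQbar_restrictInt (M : IntermediateField ℚ Qbar) (σ : Γ) (h1 : ∀ x ∈ M, σ x ∈ M)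
    (h2 : ∀ x ∈ M, σ.symm x ∈ M) (y : 𝓞 M) :
    toQbar M (restrictInt M σ h1 h2 y) = σ (toQbar M y) := rfl

theorem toQbar_restrictInt_iterate (M : IntermediateField ℚ Qbar) (σ : Γ)
    (h1 : ∀ x ∈ M, σ x ∈ M) (h2 : ∀ x ∈ M, σ.symm x ∈ M) (n : ℕ) (y : 𝓞 M) :
    toQbar M ((restrictInt M σ h1 h2)^[n] y) = (σ ^ n) (toQbar M y) := by
  induction n with
  | zero => simp
  | succ n ih =>
    rw [Function.iterate_succ_apply', toQbar_restrictInt, ih, pow_succ', AlgEquiv.mul_apply]

/-- The inclusion of rings of integers of nested intermediate fields. -/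
noncomputable def inclInt {K M : IntermediateField ℚ Qbar} (h : K ≤ M) : 𝓞 K →+* 𝓞 M :=
  RingOfIntegers.mapRingHom (IntermediateField.inclusion h).toRingHom

theorem toQbar_inclInt {K M : IntermediateField ℚ Qbar} (h : K ≤ M) (x : 𝓞 K) :
    toQbar M (inclInt h x) = toQbar K x := rfl

theorem toB_comp_inclInt {K M : IntermediateField ℚ Qbar} (h : K ≤ M) :
    (toB M).comp (inclInt h) = toB K :=
  RingHom.ext fun x => Subtype.ext (toQbar_inclInt h x)

theorem comap_inclInt_primeBelow {K M : IntermediateField ℚ Qbar} (h : K ≤ M)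
    (A : ValuationSubring Qbar) : (primeBelow M A).comap (inclInt h) = primeBelow K A := by
  rw [primeBelow, primeBelow, Ideal.comap_comap, toB_comp_inclInt]

/-! ### The residue field of a prime of prime norm -/

theorem pow_absNorm_sub_mem {R : Type*} [CommRing R] [IsDedekindDomain R]
    [Module.Free ℤ R] (I : Ideal R) [I.IsMaximal] (h0 : absNorm I ≠ 0) (x : R) :
    x ^ absNorm I - x ∈ I := by
  classical
  let _ : Field (R ⧸ I) := Ideal.Quotient.field I
  have hcard : Nat.card (R ⧸ I) = absNorm I := by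
    rw [Ideal.absNorm_apply, Submodule.cardQuot_apply]
  have hfin : Finite (R ⧸ I) := Nat.finite_of_card_ne_zero (by rw [hcard]; exact h0)
  have := Fintype.ofFinite (R ⧸ I)
  rw [← Ideal.Quotient.eq, map_pow, ← hcard, Nat.card_eq_fintype_card]
  exact FiniteField.pow_card _

/-! ### A decomposition-group element in `C ∖ C_r` -/

/-- Let `C_r ≤ C` be open subgroups of `Γ`, and `σ ∈ C ∖ C_r` normalising `C_r` with
`σ ^ r ∈ C_r` (`r` prime).  Then there are a prime `l ∉ S`, a valuation subring `A` over `l` and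
an element `τ ∈ C ∖ C_r` of the decomposition group of `A`. -/
theorem exists_decomposition_not_mem (C Cr : Subgroup Γ) (hCo : IsOpen (C : Set Γ))
    (hCro : IsOpen (Cr : Set Γ)) (hle : Cr ≤ C) (σ : Γ) (hσC : σ ∈ C) (hσCr : σ ∉ Cr)
    (hconj1 : ∀ c ∈ Cr, σ⁻¹ * c * σ ∈ Cr) (hconj2 : ∀ c ∈ Cr, σ * c * σ⁻¹ ∈ Cr)
    (r : ℕ) (hr : r.Prime) (hσr : σ ^ r ∈ Cr) (S : Finset ℕ) :
    ∃ (l : ℕ) (A : ValuationSubring Qbar) (τ : Γ), l.Prime ∧ l ∉ S ∧ A.LiesOverPrime l ∧
      τ ∈ A.decompositionSubgroup ℚ ∧ τ ∈ C ∧ τ ∉ Cr := by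
  obtain ⟨K, hK⟩ : ∃ K, K = IntermediateField.fixedField C := ⟨_, rfl⟩
  obtain ⟨M, hM⟩ : ∃ M, M = IntermediateField.fixedField Cr := ⟨_, rfl⟩
  have hKmem : ∀ x, x ∈ K ↔ ∀ c ∈ C, c x = x := by
    intro x; rw [hK, IntermediateField.mem_fixedField_iff]
  have hMmem : ∀ x, x ∈ M ↔ ∀ c ∈ Cr, c x = x := by
    intro x; rw [hM, IntermediateField.mem_fixedField_iff]
  have hKM : K ≤ M := by
    intro x hx
    rw [hKmem] at hx
    rw [hMmem]
    exact fun c hc => hx c (hle hc)
  have : FiniteDimensional ℚ K := by rw [hK]; exact finiteDimensional_fixedField _ hCo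
  have : FiniteDimensional ℚ M := by rw [hM]; exact finiteDimensional_fixedField _ hCro
  have : NumberField K := numberField_of_finite _
  have : NumberField M := numberField_of_finite _
  have h1 : ∀ x ∈ M, σ x ∈ M := by
    intro x hx
    rw [hMmem] at hx ⊢
    intro c hc
    have h := hx _ (hconj1 c hc)
    rw [AlgEquiv.mul_apply, AlgEquiv.mul_apply, AlgEquiv.aut_inv] at h
    have h' := congrArg σ h
    rwa [AlgEquiv.apply_symm_apply] at h'
  have h2 : ∀ x ∈ M, σ.symm x ∈ M := by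
    intro x hx
    rw [hMmem] at hx ⊢
    intro c hc
    have h := hx _ (hconj2 c hc)
    rw [AlgEquiv.mul_apply, AlgEquiv.mul_apply, AlgEquiv.aut_inv] at h
    have h' := congrArg σ.symm h
    rwa [AlgEquiv.symm_apply_apply] at h'
  have hι : ∀ x, restrictInt M σ h1 h2 (inclInt hKM x) = inclInt hKM x := by
    intro x
    apply toQbar_injective M
    rw [toQbar_restrictInt, toQbar_inclInt]
    exact (hKmem _).mp (toQbar_mem K x) σ hσC
  have her : ∀ y, (restrictInt M σ h1 h2)^[r] y = y := by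
    intro y
    apply toQbar_injective M
    rw [toQbar_restrictInt_iterate]
    exact (hMmem _).mp (toQbar_mem M y) (σ ^ r) hσr
  have hne : ∃ θ, restrictInt M σ h1 h2 θ ≠ θ := by
    by_contra hall
    have hall : ∀ θ, restrictInt M σ h1 h2 θ = θ := fun θ => by
      by_contra hθ
      exact hall ⟨θ, hθ⟩
    apply hσCr
    apply mem_of_forall_fixedField Cr hCro
    rw [← hM]
    intro x hx
    obtain ⟨a', b', -, hab⟩ := IsFractionRing.div_surjective (A := 𝓞 M) (⟨x, hx⟩ : M)
    have ha := congrArg (toQbar M) (hall a')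
    have hb := congrArg (toQbar M) (hall b')
    rw [toQbar_restrictInt] at ha hb
    have hx' : x = toQbar M a' / toQbar M b' := by
      have h := congrArg (algebraMap M Qbar) hab
      rw [map_div₀] at h
      exact h.symm
    rw [hx', map_div₀, ha, hb]
  obtain ⟨v, hvp, hvS, hvw⟩ := Fermat.Agent.S41.H10.exists_degOne_no_degOne_above K M
    (inclInt hKM) (restrictInt M σ h1 h2) r hr hι her hne S
  obtain ⟨l, hl⟩ : ∃ l, l = absNorm v.asIdeal := ⟨_, rfl⟩
  rw [← hl] at hvp hvS
  obtain ⟨A, hA⟩ := exists_valuationSubring_over K v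
  have hAl : A.LiesOverPrime l := by
    have h := Ideal.absNorm_mem v.asIdeal
    rw [← hl, ← hA, mem_primeBelow_iff, map_natCast] at h
    exact h
  have hvmax : v.asIdeal.IsMaximal := v.isMaximal
  have hfix : ∀ b : 𝓑, (∀ c ∈ C, c • b = b) → b ^ l - b ∈ primeB A := by
    intro b hb
    have hbK : (b : Qbar) ∈ K := by
      rw [hKmem]
      intro c hc
      exact congrArg Subtype.val (hb c hc)
    obtain ⟨x, hx⟩ := exists_toQbar_eq K hbK b.2
    have hmem : x ^ l - x ∈ primeBelow K A := by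
      rw [hA, hl]
      exact pow_absNorm_sub_mem v.asIdeal (by rw [← hl]; exact hvp.ne_zero) x
    rw [mem_primeBelow_iff, map_sub, map_pow, hx] at hmem
    rw [mem_primeB_iff]
    exact hmem
  obtain ⟨τ, hτC, hτ⟩ := exists_frob_mem C (Subgroup.isClosed_of_isOpen C hCo) A hvp hAl hfix
  have hτD : τ ∈ A.decompositionSubgroup ℚ := mem_decomposition_of_frob hvp.ne_zero τ hτ
  refine ⟨l, A, τ, hvp, hvS, hAl, hτD, hτC, ?_⟩
  intro hτCr
  have hfrob : ∀ y : 𝓞 M, toQbar M y ^ l - toQbar M y ∈ A.nonunits := by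
    intro y
    have h := hτ (toB M y)
    have hfixy : τ • toB M y = toB M y :=
      Subtype.ext ((hMmem _).mp (toQbar_mem M y) τ hτCr)
    rw [hfixy, ← neg_sub, neg_mem_iff, mem_primeB_iff] at h
    exact h
  obtain ⟨hbot, hnorm⟩ := absNorm_primeBelow_eq M A hvp hAl hfrob
  refine hvw ⟨primeBelow M A, inferInstance, hbot⟩ ?_ ?_
  · show (primeBelow M A).comap (inclInt hKM) = v.asIdeal
    rw [comap_inclInt_primeBelow, hA]
  · show (absNorm (primeBelow M A)).Prime
    rw [hnorm]; exact hvp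

/-! ### The main statement -/

theorem exists_decomposition_mem_coset : QbarStatement := by
  intro H _ hH σ r a hr hσ hpow S
  have hCo : IsOpen (cyc H σ : Set Γ) := Subgroup.isOpen_mono (le_cyc H σ) hH
  have hCro : IsOpen (cyc H (σ ^ r) : Set Γ) := Subgroup.isOpen_mono (le_cyc H (σ ^ r)) hH
  obtain ⟨l, A, τ, hl, hlS, hAl, hτD, hτC, hτCr⟩ :=
    exists_decomposition_not_mem (cyc H σ) (cyc H (σ ^ r)) hCo hCro (cyc_pow_le H σ r) σ
      (self_mem_cyc H σ) (not_mem_cyc_pow hσ hpow)
      (fun c hc => (conj_mem_cyc_pow H σ r hc).1) (fun c hc => (conj_mem_cyc_pow H σ r hc).2)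
      r hr (pow_mem_cyc_pow H σ r) S
  obtain ⟨u, hu⟩ := exists_zpow_of_not_mem_cyc_pow hr hpow hτC hτCr
  exact ⟨l, A, τ ^ u, hl, hlS, hAl, Subgroup.zpow_mem _ hτD u, hu⟩

end Fermat.Agent.S41.H2
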