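/-
S41 / unit U7 (non-Eisenstein witness) — assembly with the leaves GROUP, CARD, QBAR discharged
(helper2).  The only remaining hypothesis is the leaf BRIDGE (`BridgeStatement`).
-/
import Mathlib
import Fermat.Agent.S41.H2.NeAsm
import Fermat.Agent.S41.H2.QbarDecomp
import Fermat.Agent.S41.H83.GroupLeaf
import Fermat.Agent.S41.H55.TorsionCard

set_option autoImplicit false

open WeierstrassCurve WeierstrassCurve.Affine WeierstrassCurve.Affine.Point

namespace Fermat.Agent.S41.H2

/-- The leaf CARD, from the landed `H55.natCard_torsionBy_eq`. -/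
theorem card_statement : CardStatement :=
  fun W hΔ _ hp hp2 hpK => Fermat.Agent.S41.H55.natCard_torsionBy_eq W hΔ hp hp2 hpK

/-- The non-Eisenstein witness, modulo the leaf BRIDGE. -/
theorem ne_witness_of_bridge (hBRIDGE : BridgeStatement)
    (E : WeierstrassCurve ℚ) [E.IsElliptic] {W : WeierstrassCurve ℤ}
    (hW : W.IsIntegralModelOf E) {p : ℕ} (hp : p.Prime) (hp2 : p ≠ 2)
    (hirr : GaloisRepIsIrreducible (K := AlgebraicClosure ℚ) ℚ E p) (S : Finset ℕ) :
    ∃ l : ℕ, l.Prime ∧ l ∉ S ∧ W.IsGoodPrimeFor l ∧ ¬ (p : ℤ) ∣ (l : ℤ) + 1 - W.apOfModel l :=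
  ne_witness_of Fermat.Agent.S41.H83.group_leaf card_statement exists_decomposition_mem_coset
    hBRIDGE E hW hp hp2 hirr S

end Fermat.Agent.S41.H2
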