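/-
S41 / unit U7 — the NON-EISENSTEIN WITNESS, unconditional (helper2).

`ne_witness`: for an elliptic curve `E / ℚ` with integral model `W` and an odd prime `p` such that
`E[p]` is irreducible, every finite set `S` of integers misses a good prime `l` of `W` with
`p ∤ #W(𝔽_l) = l + 1 - a_l`.

Leaves (all landed): GROUP (`H83.group_leaf`), CARD (`H55.natCard_torsionBy_eq`),
QBAR (`H2.exists_decomposition_mem_coset`, via NOSPLIT `H10.exists_degOne_no_degOne_above`),
BRIDGE (`H54.bridge_leaf`).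
-/
import Mathlib
import Fermat.Agent.S41.H2.NeWitnessOf
import Fermat.Agent.S41.H54.Bridge

set_option autoImplicit false

open WeierstrassCurve WeierstrassCurve.Affine WeierstrassCurve.Affine.Point

namespace Fermat.Agent.S41.H2

/-- **The non-Eisenstein witness.** -/
theorem ne_witness (E : WeierstrassCurve ℚ) [E.IsElliptic] {W : WeierstrassCurve ℤ}
    (hW : W.IsIntegralModelOf E) {p : ℕ} (hp : p.Prime) (hp2 : p ≠ 2)
    (hirr : GaloisRepIsIrreducible (K := AlgebraicClosure ℚ) ℚ E p) (S : Finset ℕ) :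
    ∃ l : ℕ, l.Prime ∧ l ∉ S ∧ W.IsGoodPrimeFor l ∧ ¬ (p : ℤ) ∣ (l : ℤ) + 1 - W.apOfModel l :=
  ne_witness_of_bridge Fermat.Agent.S41.H54.bridge_leaf E hW hp hp2 hirr S

end Fermat.Agent.S41.H2
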